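/-
helper48 (P-ES / ES-C1-REL-NF): the place <-> prime dictionary for a finite extension `F' / F`
of function fields.  `R = O_v` is the valuation ring of a place `v` of `F`, `S` is the integral
closure of `R` in `F'` (an abstract `IsIntegralClosure`), and the places of `F'` over `v` are
exactly the places attached to the height one primes of `S`.
Everything lives in namespace `Fermat.Agent.H48.RelNF`.
-/
import Fermat.Agent.H29.PlaceDedekind
import Fermat.Agent.H29.ResidueConst
import Fermat.Prelude.Def_AlgebraicCurve_DivisorPushPull

set_option autoImplicit false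
set_option maxSynthPendingDepth 3
set_option linter.style.haveILetI false
set_option linter.unusedSectionVars false

open AlgebraicCurve IntermediateField IsDedekindDomain

noncomputable section

namespace Fermat.Agent.H48.RelNF

section LiesOver

variable {K F : Type} [Field K] [Field F] [Algebra K F] (v : Place K F)
  {S : Type} [CommRing S] [IsDedekindDomain S] [Algebra v.toValuationSubring S]
  [Algebra.IsIntegral v.toValuationSubring S]

theorem liesOver_heightOneSpectrum (P : HeightOneSpectrum S) :
    P.asIdeal.LiesOver v.heightOneSpectrum.asIdeal := by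
  haveI := P.isMaximal
  have hmax : (P.asIdeal.under v.toValuationSubring).IsMaximal := inferInstance
  exact ⟨(IsLocalRing.eq_maximalIdeal hmax).symm⟩

end LiesOver

section Dict

variable {K F F' : Type} [Field K] [Field F] [Field F'] [Algebra K F] [Algebra K F']
  [Algebra F F'] [IsScalarTower K F F'] [Module.Finite F F']
variable (v : Place K F)
variable {S : Type} [CommRing S] [IsDedekindDomain S] [Algebra v.toValuationSubring S]
  [Algebra S F'] [IsScalarTower v.toValuationSubring S F']
  [IsIntegralClosure S v.toValuationSubring F'] [IsFractionRing S F'] [Algebra K S]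
  [IsScalarTower K S F']

/-- The place of `F'` attached to a height one prime of `S`. -/
abbrev placeOf (P : HeightOneSpectrum S) : Place K F' :=
  Place.ofHeightOneSpectrum (K := K) (F := F') P

omit [Module.Finite F F'] in
theorem algebraMap_coe_eq (x : v.toValuationSubring) :
    algebraMap F F' (x : F) = algebraMap S F' (algebraMap v.toValuationSubring S x) := by
  rw [← IsScalarTower.algebraMap_apply v.toValuationSubring S F',
    IsScalarTower.algebraMap_apply v.toValuationSubring F F']
  rfl

theorem restrict_placeOf (P : HeightOneSpectrum S) :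
    (placeOf (K := K) (F' := F') P).restrict F = v := by
  symm
  apply Place.ext
  apply ValuationSubring.eq_of_le_of_ne_top _ _ ((placeOf (K := K) (F' := F') P).restrict F).ne_top'
  intro x hx
  rw [Place.restrict_toValuationSubring, ValuationSubring.mem_comap,
    Place.ofHeightOneSpectrum_toValuationSubring, Valuation.mem_valuationSubring_iff]
  have := algebraMap_coe_eq (F' := F') (S := S) v ⟨x, hx⟩
  simp only at this
  rw [this]
  exact P.valuation_le_one _

omit [Module.Finite F F'] in
theorem algebraMap_mem_of_restrict_eq (w : Place K F') [Algebra.IsIntegral F F']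
    (hw : w.restrict F = v) (s : S) : algebraMap S F' s ∈ w.toValuationSubring := by
  have hint : IsIntegral v.toValuationSubring (algebraMap S F' s) :=
    (IsIntegralClosure.isIntegral_iff (A := S)).mpr ⟨s, rfl⟩
  have hR : ∀ x : v.toValuationSubring,
      algebraMap v.toValuationSubring F' x ∈ w.toValuationSubring := by
    intro x
    have hx : (x : F) ∈ (w.restrict F).toValuationSubring := hw ▸ x.2
    exact (Place.mem_restrict_iff w).mp hx
  letI : Algebra v.toValuationSubring w.toValuationSubring :=
    ((algebraMap v.toValuationSubring F').codRestrict w.toValuationSubring.toSubring hR).toAlgebra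
  haveI : IsScalarTower v.toValuationSubring w.toValuationSubring F' :=
    IsScalarTower.of_algebraMap_eq fun f => rfl
  have hx : IsIntegral w.toValuationSubring (algebraMap S F' s) := hint.tower_top
  obtain ⟨y, hy⟩ := IsIntegrallyClosed.isIntegral_iff.mp hx
  exact hy ▸ y.2

theorem exists_of_restrict_eq (w : Place K F') (hw : w.restrict F = v) :
    ∃ P : HeightOneSpectrum S, placeOf (K := K) (F' := F') P = w := by
  apply Fermat.Agent.H29.exists_heightOneSpectrum_of_le (R := S) w
    (algebraMap_mem_of_restrict_eq v w hw)
  obtain ⟨π, hπ⟩ := IsDiscreteValuationRing.exists_irreducible v.toValuationSubring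
  have hπ0 : (π : F) ≠ 0 := by
    simpa [ne_eq, ZeroMemClass.coe_eq_zero] using hπ.ne_zero
  have hord : w.ord (algebraMap F F' (π : F)) = Place.ramificationIndex (F := F) w := by
    rw [w.ord_restrict, hw, v.ord_coe_irreducible hπ, mul_one]
  have hpos := w.ramificationIndex_pos (F := F)
  refine ⟨algebraMap v.toValuationSubring S π, ?_, ?_⟩
  · intro h0
    have h1 := algebraMap_coe_eq (F' := F') (S := S) v π
    rw [h0, map_zero] at h1
    exact hπ0 ((map_eq_zero (algebraMap F F')).mp h1)
  · rw [← algebraMap_coe_eq (F' := F') (S := S) v π, hord]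
    exact_mod_cast hpos

omit [Module.Finite F F'] in
theorem placeOf_injective :
    Function.Injective (placeOf (K := K) (F' := F') (S := S)) :=
  Fermat.Agent.H29.ofHeightOneSpectrum_injective

omit [Module.Finite F F'] in
theorem ord_placeOf_algebraMap (P : HeightOneSpectrum S) {a : S} (ha : a ≠ 0) :
    (placeOf (K := K) (F' := F') P).ord (algebraMap S F' a) =
      ((Associates.mk P.asIdeal).count (Associates.mk (Ideal.span {a})).factors : ℤ) := by
  rw [Fermat.Agent.H29.ord_ofHeightOneSpectrum, HeightOneSpectrum.valuation_of_algebraMap,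
    P.intValuation_if_neg ha, WithZero.log_exp, neg_neg]

omit [Field F'] [Algebra K F'] [Algebra F F'] [IsScalarTower K F F'] [Module.Finite F F'] in
theorem ord_coe_eq_count {x : v.toValuationSubring} (hx : x ≠ 0) :
    v.ord (x : F) =
      ((Associates.mk v.heightOneSpectrum.asIdeal).count
        (Associates.mk (Ideal.span {x})).factors : ℤ) := by
  rw [Place.ord, v.adicValuation_coe, v.heightOneSpectrum.intValuation_if_neg hx,
    WithZero.log_exp, neg_neg]

omit [Field F'] [Algebra K F'] [Algebra F F'] [IsScalarTower K F F'] [Module.Finite F F'] in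
theorem residue_comp_surjective [IsAlgClosed K] {y : F} [Algebra.IsAlgebraic K⟮y⟯ F] :
    Function.Surjective ((Ideal.Quotient.mk v.heightOneSpectrum.asIdeal).comp
      (algebraMap K v.toValuationSubring)) := by
  intro r
  obtain ⟨a, rfl⟩ := Ideal.Quotient.mk_surjective r
  obtain ⟨c, hc⟩ := Fermat.Agent.H29.place_exists_const_sub (y := y) v a.2
  refine ⟨c, ?_⟩
  rw [RingHom.comp_apply]
  symm
  rw [Ideal.Quotient.eq, Place.heightOneSpectrum_asIdeal,
    Fermat.Agent.H29.place_mem_maximalIdeal_iff]
  rcases hc with hc | hc
  · left
    show (a : F) - algebraMap K F c = 0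
    rw [hc, sub_self]
  · right
    exact hc

end Dict

section Alg

variable {K F F' : Type*} [Field K] [Field F] [Field F'] [Algebra K F] [Algebra K F']
  [Algebra F F'] [IsScalarTower K F F']

theorem isAlgebraic_adjoin_algebraMap (x : F) [Algebra.IsAlgebraic K⟮x⟯ F]
    [Algebra.IsAlgebraic F F'] : Algebra.IsAlgebraic K⟮algebraMap F F' x⟯ F' := by
  have h1 : Algebra.IsAlgebraic K⟮x⟯ F' := Algebra.IsAlgebraic.trans K⟮x⟯ F F'
  have hmem : ∀ a : K⟮x⟯, algebraMap F F' (a : F) ∈ K⟮algebraMap F F' x⟯ := by
    intro a
    have h2 : (K⟮x⟯).map (IsScalarTower.toAlgHom K F F') = K⟮algebraMap F F' x⟯ := by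
      rw [IntermediateField.adjoin_map]
      simp
    rw [← h2]
    exact ⟨a, a.2, rfl⟩
  let f : K⟮x⟯ →+* K⟮algebraMap F F' x⟯ :=
    { toFun := fun a => ⟨algebraMap F F' (a : F), hmem a⟩
      map_one' := Subtype.ext (by simp)
      map_mul' := fun a b => Subtype.ext (by simp)
      map_zero' := Subtype.ext (by simp)
      map_add' := fun a b => Subtype.ext (by simp) }
  exact Algebra.IsAlgebraic.ringHom_of_comp_eq (R := K⟮x⟯) (A := F') (S := K⟮algebraMap F F' x⟯)
    (B := F') f (RingHom.id F') f.injective Function.surjective_id (by ext a; rfl)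

end Alg

end Fermat.Agent.H48.RelNF
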