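/-
helper48 (P-ES / ES-C1-REL-NF): generic Dedekind input for the norm formula.

For a finite extension `S / R` of Dedekind domains such that the relative norm of every height
one prime of `S` is one fixed height one prime `𝔪` of `R` (e.g. `R` a discrete valuation ring
with algebraically closed residue field), the exponent of `𝔪` in the ideal generated by the
norm of `a ∈ S` is the sum of the exponents of the height one primes of `S` in `(a)`.
Pure Mathlib.  Everything lives in namespace `Fermat.Agent.H48.RelNF`.
-/
import Mathlib.RingTheory.Ideal.Norm.RelNorm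
import Mathlib.RingTheory.DedekindDomain.Factorization
import Mathlib.RingTheory.DedekindDomain.AdicValuation
import Mathlib.FieldTheory.IsAlgClosed.Basic

set_option autoImplicit false
set_option maxSynthPendingDepth 3
set_option linter.style.haveILetI false
set_option linter.unusedSectionVars false

open IsDedekindDomain

noncomputable section

namespace Fermat.Agent.H48.RelNF

universe u

section InertiaOne

variable {k R : Type u} {S : Type*} [Field k] [IsAlgClosed k] [CommRing R] [CommRing S]
  [Algebra R S] [Module.Finite R S]
  (φ : k →+* R) (p : Ideal R) [p.IsMaximal] (P : Ideal S) [P.IsMaximal] [P.LiesOver p]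

/-- If the residue field `R ⧸ p` is (the image of) an algebraically closed field, then every
maximal ideal of a finite `R`-algebra lying over `p` has residue degree one. -/
theorem finrank_quotient_eq_one (hφ : Function.Surjective ((Ideal.Quotient.mk p).comp φ)) :
    Module.finrank (R ⧸ p) (S ⧸ P) = 1 := by
  letI : Field (R ⧸ p) := Ideal.Quotient.field p
  letI : Field (S ⧸ P) := Ideal.Quotient.field P
  have hbij : Function.Bijective ((Ideal.Quotient.mk p).comp φ) := ⟨RingHom.injective _, hφ⟩
  haveI : IsAlgClosed (R ⧸ p) := IsAlgClosed.of_ringEquiv _ _ (RingEquiv.ofBijective _ hbij)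
  haveI : Module.Finite (R ⧸ p) (S ⧸ P) := inferInstance
  have h2 := IsAlgClosed.algebraMap_bijective_of_isIntegral (k := R ⧸ p) (K := S ⧸ P)
  rw [← (LinearEquiv.ofBijective (Algebra.linearMap (R ⧸ p) (S ⧸ P)) h2).finrank_eq,
    Module.finrank_self]

end InertiaOne

section Norm

variable {R S : Type*} [CommRing R] [CommRing S] [Algebra R S]
  [Module.Finite R S] [Module.IsTorsionFree R S] [IsDedekindDomain R] [IsDedekindDomain S]
  [PerfectField (FractionRing R)] (𝔪 : HeightOneSpectrum R)

/-- The relative norm of a prime of residue degree one is the prime below. -/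
theorem relNorm_eq_of_finrank_one (P : HeightOneSpectrum S) [P.asIdeal.LiesOver 𝔪.asIdeal]
    (h : Module.finrank (R ⧸ 𝔪.asIdeal) (S ⧸ P.asIdeal) = 1) :
    Ideal.relNorm R P.asIdeal = 𝔪.asIdeal := by
  haveI := 𝔪.isMaximal
  haveI := P.isMaximal
  rw [Ideal.relNorm_eq_pow_of_isMaximal P.asIdeal 𝔪.asIdeal,
    Ideal.inertiaDeg_eq_of_isMaximal 𝔪.asIdeal P.asIdeal, h, pow_one]

theorem count_pow_self (k : ℕ) :
    (Associates.mk 𝔪.asIdeal).count (Associates.mk (𝔪.asIdeal ^ k)).factors = k := by
  have hirr : Irreducible (Associates.mk 𝔪.asIdeal) := 𝔪.associates_irreducible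
  rw [Associates.mk_pow, Associates.count_pow (Associates.mk_ne_zero.mpr 𝔪.ne_bot) hirr,
    Associates.count_self hirr, mul_one]

/-- **Norm formula, ideal-theoretic form.**  If every height one prime of `S` has relative norm
`𝔪`, the exponent of `𝔪` in `(N a)` is the sum of the exponents of the primes of `S` in `(a)`. -/
theorem count_intNorm_eq_sum [Fintype (HeightOneSpectrum S)]
    (hrel : ∀ P : HeightOneSpectrum S, Ideal.relNorm R P.asIdeal = 𝔪.asIdeal) {a : S}
    (ha : a ≠ 0) :
    (Associates.mk 𝔪.asIdeal).count
        (Associates.mk (Ideal.span {Algebra.intNorm R S a})).factors =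
      ∑ P : HeightOneSpectrum S,
        (Associates.mk P.asIdeal).count (Associates.mk (Ideal.span {a})).factors := by
  classical
  have hI : Ideal.span {a} ≠ (0 : Ideal S) := by
    simpa [Ideal.zero_eq_bot, Ideal.span_singleton_eq_bot] using ha
  have hfac := Ideal.finprod_heightOneSpectrum_factorization hI
  rw [finprod_eq_prod_of_fintype] at hfac
  have h1 : Ideal.relNorm R (Ideal.span {a}) = 𝔪.asIdeal ^ (∑ P : HeightOneSpectrum S,
      (Associates.mk P.asIdeal).count (Associates.mk (Ideal.span {a})).factors) := by
    conv_lhs => rw [← hfac]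
    rw [map_prod]
    simp only [HeightOneSpectrum.maxPowDividing, map_pow, hrel]
    rw [Finset.prod_pow_eq_pow_sum]
  rw [Ideal.relNorm_singleton] at h1
  rw [h1, count_pow_self]

end Norm

end Fermat.Agent.H48.RelNF
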