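/-
helper48 (P-ES / ES-C1-REL-NF, row 326): the norm formula
`(f_* div g)(v) = ord_v (N_{F'/F} g)` for a finite extension of function fields of one variable
over an algebraically closed field of characteristic zero.

Main result: `Fermat.Agent.H48.RelNF.relNormFormula : Fermat.Agent.H21.EsC.RelNormFormulaStatement`.
-/
import Fermat.Agent.H21.EsC.Interfaces
import Fermat.Agent.H48.EsC.RelNormGeneric
import Fermat.Agent.H48.EsC.RelDict

set_option autoImplicit false
set_option maxSynthPendingDepth 3
set_option linter.style.haveILetI false
set_option linter.unusedSectionVars false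

open AlgebraicCurve IntermediateField IsDedekindDomain

noncomputable section

namespace Fermat.Agent.H48.RelNF

section Main

variable {K F F' : Type} [Field K] [Field F] [Field F'] [Algebra K F] [Algebra K F']
  [Algebra F F'] [IsScalarTower K F F'] [IsAlgClosed K] [Module.Finite F F']
variable (v : Place K F)
variable {S : Type} [CommRing S] [IsDedekindDomain S] [Algebra v.toValuationSubring S]
  [Algebra S F'] [IsScalarTower v.toValuationSubring S F']
  [IsIntegralClosure S v.toValuationSubring F'] [IsFractionRing S F'] [Algebra K S]
  [IsScalarTower K S F'] [Module.Finite v.toValuationSubring S]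
  [Module.IsTorsionFree v.toValuationSubring S]
  [PerfectField (FractionRing v.toValuationSubring)] [Fintype (HeightOneSpectrum S)]

/-- Every height one prime of `S` has relative norm the maximal ideal of `O_v`. -/
theorem relNorm_heightOneSpectrum {y : F} [Algebra.IsAlgebraic K⟮y⟯ F]
    (P : HeightOneSpectrum S) :
    Ideal.relNorm v.toValuationSubring P.asIdeal = v.heightOneSpectrum.asIdeal := by
  haveI := liesOver_heightOneSpectrum v P
  haveI := P.isMaximal
  haveI := v.heightOneSpectrum.isMaximal
  exact relNorm_eq_of_finrank_one v.heightOneSpectrum P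
    (finrank_quotient_eq_one (algebraMap K v.toValuationSubring) _ _
      (residue_comp_surjective v (y := y)))

/-- The norm formula for integral elements. -/
theorem sum_ord_algebraMap {y : F} [Algebra.IsAlgebraic K⟮y⟯ F] {a : S} (ha : a ≠ 0) :
    ∑ P : HeightOneSpectrum S, (placeOf (K := K) (F' := F') P).ord (algebraMap S F' a) =
      v.ord (Algebra.norm F (algebraMap S F' a)) := by
  have h := count_intNorm_eq_sum v.heightOneSpectrum
    (fun P => relNorm_heightOneSpectrum v (y := y) P) ha
  have hn : Algebra.intNorm v.toValuationSubring S a ≠ 0 := Algebra.intNorm_ne_zero.mpr ha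
  rw [← Algebra.algebraMap_intNorm (A := v.toValuationSubring) (K := F) (L := F') (B := S)]
  rw [show algebraMap v.toValuationSubring F (Algebra.intNorm v.toValuationSubring S a) =
    ((Algebra.intNorm v.toValuationSubring S a : v.toValuationSubring) : F) from rfl]
  rw [ord_coe_eq_count v hn, h]
  push_cast
  exact Finset.sum_congr rfl (fun P _ => ord_placeOf_algebraMap (K := K) P ha)

/-- The norm formula, as a sum over the height one primes of `S`. -/
theorem sum_ord_eq_ord_norm {y : F} [Algebra.IsAlgebraic K⟮y⟯ F] {f : F'} (hf : f ≠ 0) :
    ∑ P : HeightOneSpectrum S, (placeOf (K := K) (F' := F') P).ord f =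
      v.ord (Algebra.norm F f) := by
  obtain ⟨a, b, hb, rfl⟩ := IsFractionRing.div_surjective (A := S) f
  have hb0 : b ≠ 0 := nonZeroDivisors.ne_zero hb
  have hB : algebraMap S F' b ≠ 0 := by
    simpa using hb0
  have hA : algebraMap S F' a ≠ 0 := by
    intro h0
    apply hf
    rw [h0, zero_div]
  have ha0 : a ≠ 0 := by
    rintro rfl
    exact hA (map_zero _)
  have h1 : ∀ P : HeightOneSpectrum S,
      (placeOf (K := K) (F' := F') P).ord (algebraMap S F' a / algebraMap S F' b) =
        (placeOf (K := K) (F' := F') P).ord (algebraMap S F' a) -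
          (placeOf (K := K) (F' := F') P).ord (algebraMap S F' b) := by
    intro P
    rw [div_eq_mul_inv, Place.ord_mul _ hA (inv_ne_zero hB), Place.ord_inv]
    ring
  simp only [h1, Finset.sum_sub_distrib]
  rw [sum_ord_algebraMap v ha0 (y := y), sum_ord_algebraMap v hb0 (y := y)]
  have hq : algebraMap S F' a / algebraMap S F' b ≠ 0 := div_ne_zero hA hB
  have h2 : Algebra.norm F (algebraMap S F' a) =
      Algebra.norm F (algebraMap S F' a / algebraMap S F' b) *
        Algebra.norm F (algebraMap S F' b) := by
    rw [← map_mul, div_mul_cancel₀ _ hB]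
  rw [h2, Place.ord_mul _ (Algebra.norm_ne_zero_iff.mpr hq) (Algebra.norm_ne_zero_iff.mpr hB)]
  ring

/-- The pushforward of a principal divisor at `v`, as a sum over the height one primes of
`S`. -/
theorem pushforward_eq_sum (hdeg : ∀ w : Place K F', w.deg = 1) (D : Divisor K F') {f : F'}
    (hD : ∀ w, D w = w.ord f) :
    Divisor.pushforward F D v =
      ∑ P : HeightOneSpectrum S, (placeOf (K := K) (F' := F') P).ord f := by
  classical
  rw [Divisor.pushforward_apply]
  have hi : ∀ w : Place K F', (w.inertiaDeg F : ℤ) = 1 := by
    intro w
    have h := w.deg_restrict_mul_inertiaDeg (F := F)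
    rw [hdeg w] at h
    have h' : w.inertiaDeg F = 1 := Nat.eq_one_of_mul_eq_one_left h
    exact_mod_cast h'
  rw [← Finset.sum_image (f := fun w : Place K F' => w.ord f) (s := Finset.univ)
    (g := placeOf (K := K) (F' := F') (S := S)) placeOf_injective.injOn]
  rw [← Finset.sum_filter]
  have hsub : D.support.filter (fun w => w.restrict F = v) ⊆
      Finset.univ.image (placeOf (K := K) (F' := F') (S := S)) := by
    intro w hw
    rw [Finset.mem_filter] at hw
    obtain ⟨P, hP⟩ := exists_of_restrict_eq (S := S) v w hw.2
    exact Finset.mem_image.mpr ⟨P, Finset.mem_univ _, hP⟩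
  rw [← Finset.sum_subset hsub]
  · refine Finset.sum_congr rfl fun w _ => ?_
    rw [hi w, mul_one, hD w]
  · intro w hw hw'
    obtain ⟨P, -, rfl⟩ := Finset.mem_image.mp hw
    have hr := restrict_placeOf (K := K) (F' := F') v P
    have hns : placeOf (K := K) (F' := F') P ∉ D.support := by
      intro hmem
      exact hw' (Finset.mem_filter.mpr ⟨hmem, hr⟩)
    rw [Finsupp.notMem_support_iff] at hns
    rw [← hD, hns]

end Main

/-- **ES-C1-REL-NF.**  The norm formula `(f_* div g)(v) = ord_v (N_{F'/F} g)` for a finite
extension of function fields of one variable over an algebraically closed field of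
characteristic zero. -/
theorem relNormFormula : Fermat.Agent.H21.EsC.RelNormFormulaStatement := by
  intro K F F' _ _ _ _ _ _ _ _ _ _ _ hx
  obtain ⟨x, -, hxf⟩ := hx
  intro f hf D hD v
  haveI : Algebra.IsAlgebraic K⟮x⟯ F := Algebra.IsAlgebraic.of_finite _ _
  haveI : Algebra.IsAlgebraic F F' := Algebra.IsAlgebraic.of_finite _ _
  haveI := isAlgebraic_adjoin_algebraMap (K := K) (F' := F') x
  have hdeg : ∀ w : Place K F', w.deg = 1 := fun w =>
    Fermat.Agent.H29.place_deg_eq_one (y := algebraMap F F' x) w
  haveI : CharZero F := charZero_of_injective_algebraMap (algebraMap K F).injective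
  haveI : IsScalarTower K v.toValuationSubring F' :=
    IsScalarTower.of_algebraMap_eq (fun a => by
      rw [IsScalarTower.algebraMap_apply K F F']; rfl)
  haveI : IsFractionRing (integralClosure v.toValuationSubring F') F' :=
    IsIntegralClosure.isFractionRing_of_finite_extension v.toValuationSubring F F' _
  haveI : IsDedekindDomain (integralClosure v.toValuationSubring F') :=
    IsIntegralClosure.isDedekindDomain v.toValuationSubring F F' _
  haveI : Module.Finite v.toValuationSubring (integralClosure v.toValuationSubring F') :=
    IsIntegralClosure.finite v.toValuationSubring F F' _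
  haveI : Finite (HeightOneSpectrum (integralClosure v.toValuationSubring F')) := by
    haveI : Finite {w : Place K F' | w.restrict F = v} :=
      (Place.restrict_fiber_finite (F' := F') v).to_subtype
    exact Finite.of_injective
      (fun P : HeightOneSpectrum (integralClosure v.toValuationSubring F') =>
        (⟨placeOf (K := K) (F' := F') P, restrict_placeOf v P⟩ :
          {w : Place K F' | w.restrict F = v}))
      (fun P Q h => placeOf_injective (congrArg Subtype.val h))
  letI := Fintype.ofFinite (HeightOneSpectrum (integralClosure v.toValuationSubring F'))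
  rw [pushforward_eq_sum (S := integralClosure v.toValuationSubring F') v hdeg D hD,
    sum_ord_eq_ord_norm v hf (y := x)]

end Fermat.Agent.H48.RelNF
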